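import Mathlib
import Fermat.Agent.S52.H55.TorsionAnyChar

/-!
# The `p`-torsion of a Weierstrass curve has exactly `p ^ 2` points

`K` an algebraically closed field, `W` a Weierstrass curve over `K` with `Δ ≠ 0`, `p` an odd prime
which is nonzero in `K` (any characteristic different from `p`, including `2` and `3`; any
Weierstrass form).  Then `#W[p](K) = p ^ 2`.

The upper bound is landed (`Fermat.Agent.S52.H55.card_torsion_le_of_cast_ne_zero`, from the S13
ladder package).  For the lower bound let `(X, Z) = lad W p` be the ladder pair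
(`x(pQ) = X(x(Q)) / Z(x(Q))`, `X` monic of degree `p²`, `Z` of degree `≤ p² - 1` with coefficient
`p²` there):

* `X` and `Z` have no common root (`lad_spec` at a point above the root);
* the Wronskian `X' Z - X Z'` has coefficient `p²·p² - (p² - 1)·p² = p² ≠ 0` in degree `2p² - 2`,
  so it is a nonzero polynomial with finitely many roots;
* for `c` outside the finite set `{X(r)/Z(r) : Wr(r) = 0}` the polynomial `X - c Z` (monic of
  degree `p²`) is separable, hence has `p²` distinct roots `r`;
* above each root there is a point `Q_r` with `p • Q_r = R` for one fixed point `R`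
  (`x(p • Q_r) = c`, adjust the sign), and `r ↦ Q_r - Q_{r₀}` is injective into `W[p]`.

Main statements: `ncard_torsion_eq`, `natCard_torsionBy_eq`.
-/

set_option autoImplicit false

open Polynomial WeierstrassCurve
open Fermat.Agent.S05 (xOf xOf_some)
open Fermat.Agent.S13.H15 Fermat.Agent.S13.H56 Fermat.Agent.S13.H61

namespace Fermat.Agent.S41.H55

universe u

variable {K : Type u} [Field K]

/-! ### Degree calculus -/

/-- The derivative in the degree / leading coefficient calculus. -/
lemma degLC_derivative {f : K[X]} {d : ℕ} {c : K} (hf : DegLC f d c) (hd : 1 ≤ d) :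
    DegLC (derivative f) (d - 1) ((d : K) * c) := by
  refine ⟨(natDegree_derivative_le f).trans (Nat.sub_le_sub_right hf.1 1), ?_⟩
  have h1 : ((d - 1 : ℕ) : K) + 1 = (d : K) := by
    rw [← Nat.cast_add_one, Nat.sub_add_cancel hd]
  rw [coeff_derivative, Nat.sub_add_cancel hd, hf.2, h1, mul_comm]

/-- The Wronskian `X' Z - X Z'` of the ladder pair. -/
noncomputable def wr (W : Affine K) (n : ℕ) : K[X] :=
  derivative (lad W n).1 * (lad W n).2 - (lad W n).1 * derivative (lad W n).2

/-- The Wronskian has degree at most `2n² - 2`, with coefficient `n²` there. -/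
lemma wr_degLC (W : Affine K) {n : ℕ} (hn : 2 ≤ n) :
    DegLC (wr W n) (2 * n ^ 2 - 2) ((n : K) ^ 2) := by
  obtain ⟨hX, hZ⟩ := lad_deg W n
  have hm : 4 ≤ n ^ 2 := by nlinarith
  generalize n ^ 2 = m at hX hZ hm
  have hX' := degLC_derivative hX (by omega)
  have hZ' := degLC_derivative hZ (by omega)
  have h1 := (hX'.mul hZ).congr (e := 2 * m - 2) (by omega) rfl
  have h2 := (hX.mul hZ').congr (e := 2 * m - 2) (by omega) rfl
  refine (h1.sub h2).congr rfl ?_
  have hc : ((m - 1 : ℕ) : K) = (m : K) - 1 := by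
    rw [Nat.cast_sub (by omega), Nat.cast_one]
  rw [hc]
  ring

lemma wr_ne_zero (W : Affine K) {n : ℕ} (hn : 2 ≤ n) (hnK : (n : K) ≠ 0) : wr W n ≠ 0 := by
  intro h
  have := (wr_degLC W hn).2
  rw [h, coeff_zero] at this
  exact pow_ne_zero 2 hnK this.symm

/-! ### Points above the roots -/

variable [DecidableEq K]

/-- The two ladder polynomials have no common root. -/
lemma lad_not_both_zero [IsAlgClosed K] (W : Affine K) (hΔ : W.Δ ≠ 0) (n : ℕ) (r : K) :
    (lad W n).1.eval r ≠ 0 ∨ (lad W n).2.eval r ≠ 0 := by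
  obtain ⟨y, hy⟩ := exists_nonsingular_of_isAlgClosed W hΔ r
  have h := lad_spec W (Affine.Point.some_ne_zero hy) n
  rw [xOf_some] at h
  by_cases h0 : n • Affine.Point.some r y hy = 0
  · exact Or.inl (h.1 h0).2
  · exact Or.inr (h.2 h0).1

/-- Above a root of `X - c Z` there is a point `Q` with `n • Q ≠ 0` and `x(n • Q) = c`. -/
lemma exists_point_of_root [IsAlgClosed K] (W : Affine K) (hΔ : W.Δ ≠ 0) (n : ℕ) (c r : K)
    (hr : (lad W n).1.eval r = c * (lad W n).2.eval r) :
    ∃ Q : W.Point, xOf Q = r ∧ n • Q ≠ 0 ∧ xOf (n • Q) = c := by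
  obtain ⟨y, hy⟩ := exists_nonsingular_of_isAlgClosed W hΔ r
  have h := lad_spec W (Affine.Point.some_ne_zero hy) n
  rw [xOf_some] at h
  refine ⟨Affine.Point.some r y hy, xOf_some hy, ?_⟩
  by_cases h0 : n • Affine.Point.some r y hy = 0
  · exfalso
    obtain ⟨hz, hx⟩ := h.1 h0
    rw [hz, mul_zero] at hr
    exact hx hr
  · obtain ⟨hz, hx⟩ := h.2 h0
    refine ⟨h0, ?_⟩
    rw [hr] at hx
    exact mul_right_cancel₀ hz hx

omit [DecidableEq K] in
/-- Two nonzero points with the same `x`-coordinate are equal or opposite. -/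
lemma eq_or_eq_neg_of_xOf_eq {W : Affine K} {P Q : W.Point} (hP : P ≠ 0) (hQ : Q ≠ 0)
    (h : xOf P = xOf Q) : P = Q ∨ P = -Q := by
  rcases P with _ | ⟨x₁, y₁, h₁⟩
  · exact absurd rfl hP
  rcases Q with _ | ⟨x₂, y₂, h₂⟩
  · exact absurd rfl hQ
  exact Affine.Point.X_eq_iff.mp h

omit [DecidableEq K] in
lemma xOf_neg {W : Affine K} (P : W.Point) : xOf (-P) = xOf P := by
  rcases P with _ | ⟨x, y, h⟩
  · rfl
  · rfl

/-! ### The lower bound -/

/-- **Lower bound.**  Over an algebraically closed field in which `n ≥ 2` is nonzero, a Weierstrass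
curve with `Δ ≠ 0` has at least `n ^ 2` points killed by `n` (as soon as they are finitely
many). -/
theorem sq_le_ncard_torsion [IsAlgClosed K] (W : Affine K) (hΔ : W.Δ ≠ 0) {n : ℕ} (hn : 2 ≤ n)
    (hnK : (n : K) ≠ 0) (hfin : {P : W.Point | n • P = 0}.Finite) :
    n ^ 2 ≤ Set.ncard {P : W.Point | n • P = 0} := by
  classical
  obtain ⟨hX, hZ⟩ := lad_deg W n
  set X := (lad W n).1 with hXdef
  set Z := (lad W n).2 with hZdef
  have hn2 : 1 ≤ n ^ 2 := Nat.one_le_pow _ _ (by omega)
  -- the bad values of `c`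
  let B : Finset K := (wr W n).roots.toFinset.image fun r => X.eval r / Z.eval r
  obtain ⟨c, hc⟩ := Infinite.exists_notMem_finset B
  -- the polynomial `F = X - c Z`
  set F : K[X] := X - C c * Z with hF
  have hFdeg : DegLC F (n ^ 2) 1 := by
    have h1 : DegLC (C c * Z) (n ^ 2) 0 := (hZ.C_mul c).mono (by omega)
    exact (hX.sub h1).congr rfl (sub_zero 1)
  have hFnat : F.natDegree = n ^ 2 :=
    le_antisymm hFdeg.1 (le_natDegree_of_ne_zero (by rw [hFdeg.2]; exact one_ne_zero))
  have hF0 : F ≠ 0 := by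
    intro h
    rw [h, natDegree_zero] at hFnat
    omega
  -- `F` is separable
  have hsep : F.Separable := by
    rw [separable_def, Polynomial.isCoprime_iff_aeval_ne_zero_of_isAlgClosed (k := K) K]
    intro r
    by_contra hcon
    rw [not_or, not_not, not_not] at hcon
    obtain ⟨h1, h2⟩ := hcon
    rw [coe_aeval_eq_eval] at h1 h2
    have e1 : X.eval r = c * Z.eval r := by
      have : F.eval r = X.eval r - c * Z.eval r := by simp [hF]
      rw [this] at h1
      exact sub_eq_zero.mp h1
    have e2 : (derivative X).eval r = c * (derivative Z).eval r := by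
      have : (derivative F).eval r = (derivative X).eval r - c * (derivative Z).eval r := by
        simp [hF]
      rw [this] at h2
      exact sub_eq_zero.mp h2
    have hwr : (wr W n).eval r = 0 := by
      have : (wr W n).eval r
          = (derivative X).eval r * Z.eval r - X.eval r * (derivative Z).eval r := by
        simp [wr, hXdef, hZdef]
      rw [this, e1, e2]
      ring
    have hZr : Z.eval r ≠ 0 := by
      intro hz
      rcases lad_not_both_zero W hΔ n r with h | h
      · exact h (by rw [← hXdef, e1, hz, mul_zero])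
      · exact h hz
    refine hc (Finset.mem_image.mpr ⟨r, ?_, ?_⟩)
    · rw [Multiset.mem_toFinset, mem_roots (wr_ne_zero W hn hnK)]
      exact hwr
    · rw [e1, mul_div_assoc, div_self hZr, mul_one]
  -- the roots of `F`
  have hcard : F.roots.toFinset.card = n ^ 2 := by
    rw [Multiset.toFinset_card_of_nodup (nodup_roots hsep),
      ← (IsAlgClosed.splits F).natDegree_eq_card_roots, hFnat]
  have hroot : ∀ r ∈ F.roots.toFinset, X.eval r = c * Z.eval r := by
    intro r hr
    rw [Multiset.mem_toFinset, mem_roots hF0, IsRoot.def] at hr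
    have : F.eval r = X.eval r - c * Z.eval r := by simp [hF]
    rw [this] at hr
    exact sub_eq_zero.mp hr
  -- a base root and the reference point `R`
  have hne : F.roots.toFinset.Nonempty := by
    rw [← Finset.card_pos, hcard]
    omega
  obtain ⟨r₀, hr₀⟩ := hne
  obtain ⟨Q₀, -, hQ₀n, hQ₀c⟩ := exists_point_of_root W hΔ n c r₀ (hroot r₀ hr₀)
  -- above each root a point with `n • Q = n • Q₀`
  have key : ∀ r ∈ F.roots.toFinset, ∃ Q : W.Point, xOf Q = r ∧ n • Q = n • Q₀ := by
    intro r hr
    obtain ⟨Q, hQx, hQn, hQc⟩ := exists_point_of_root W hΔ n c r (hroot r hr)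
    rcases eq_or_eq_neg_of_xOf_eq hQn hQ₀n (hQc.trans hQ₀c.symm) with h | h
    · exact ⟨Q, hQx, h⟩
    · exact ⟨-Q, by rw [xOf_neg, hQx], by rw [smul_neg, h, neg_neg]⟩
  choose! g hgx hgn using key
  -- the injection into the torsion
  have hmaps : ∀ r ∈ F.roots.toFinset, g r - g r₀ ∈ hfin.toFinset := by
    intro r hr
    rw [Set.Finite.mem_toFinset, Set.mem_ofPred_eq, smul_sub, hgn r hr, hgn r₀ hr₀, sub_self]
  have hinj : Set.InjOn (fun r => g r - g r₀) (F.roots.toFinset : Set K) := by
    intro r hr r' hr' h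
    have h' : g r = g r' := sub_left_injective h
    rw [← hgx r hr, ← hgx r' hr', h']
  have := Finset.card_le_card_of_injOn (fun r => g r - g r₀) hmaps hinj
  rw [hcard] at this
  rwa [Set.ncard_eq_toFinset_card _ hfin]

/-! ### The exact count -/

/-- **`#W[p] = p ^ 2`**: over an algebraically closed field in which the odd prime `p` is nonzero,
a Weierstrass curve with `Δ ≠ 0` has exactly `p ^ 2` points killed by `p`. -/
theorem ncard_torsion_eq [IsAlgClosed K] (W : Affine K) (hΔ : W.Δ ≠ 0) {p : ℕ} (hp : p.Prime)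
    (hp2 : p ≠ 2) (hpK : (p : K) ≠ 0) :
    Set.ncard {P : W.Point | p • P = 0} = p ^ 2 := by
  obtain ⟨hfin, hle⟩ := Fermat.Agent.S52.H55.card_torsion_le_of_cast_ne_zero W hp hp2 hpK
  exact le_antisymm hle (sq_le_ncard_torsion W hΔ hp.two_le hpK hfin)

/-- **`#W[p] = p ^ 2`**, for the torsion submodule. -/
theorem natCard_torsionBy_eq [IsAlgClosed K] (W : Affine K) (hΔ : W.Δ ≠ 0) {p : ℕ} (hp : p.Prime)
    (hp2 : p ≠ 2) (hpK : (p : K) ≠ 0) :
    Nat.card (Submodule.torsionBy ℤ W.Point p) = p ^ 2 := by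
  have h := ncard_torsion_eq W hΔ hp hp2 hpK
  rw [← torsionBy_eq_setOf, ← Nat.card_coe_set_eq] at h
  exact h

end Fermat.Agent.S41.H55
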