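import Mathlib

/-!
# S41 / PAIR, sub-leaf P1-INT (helper55): the coset-model form over `ℤ` is unimodular mod odd `n`

Abstract setting (no group, no cosets): `X` a finite type, `σ ρ : Equiv.Perm X` with `σ ∘ σ = 1`
and `ρ ∘ ρ ∘ ρ = 1` (fixed points allowed, transitivity not needed).  For `f : X → ℤ` put
`(s f) x = f (σ x)` and `(r' f) x = f (ρ.symm x)`, and `dot f g = ∑ x, f x * g x`.

* `IsW σ ρ P` : `P + s P = 0` and `P ∈ range (r' - 1)`   (`T`-normalised cocycles);
* `IsC σ ρ P` : `P = s n - n` with `r' n = s n`             (coboundaries);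
* `twoB P P' m' = -(P, P') - 2 (P, m')` for `(r' - 1) m' = P'` (twice the cup-product form).

Main results:

* `twoB_congr`   : `twoB` does not depend on the choice of `m'`;
* `twoB_self`, `twoB_skew` : alternating / skew-symmetric;
* `IsC.isW`, `twoB_isC_right`, `twoB_isC_left` : `C ⊆ W` and `C` is in the radical;
* `radical_right`, `radical_left` : **for every odd `n`, the radical of `twoB` mod `n` on `W` is
  `C + n W`** (this is the unimodularity of the form on `W / C`, e.g. for `n = p` an odd prime,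
  `p = 3` included);
* by-products: `sat_range`, `sat_lam` (saturation), `isW_of_perp`, `exists_of_dvd_dot`.
-/

set_option autoImplicit false

namespace Fermat.Agent.S41.H55.CosetLattice

open Finset

variable {X : Type*} [Fintype X]

/-- The standard bilinear form on `X → ℤ`. -/
def dot (f g : X → ℤ) : ℤ := ∑ x, f x * g x

theorem dot_comm (f g : X → ℤ) : dot f g = dot g f := by
  unfold dot
  exact Finset.sum_congr rfl fun x _ => mul_comm _ _

theorem dot_add_left (f f' g : X → ℤ) : dot (f + f') g = dot f g + dot f' g := by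
  unfold dot
  rw [← Finset.sum_add_distrib]
  exact Finset.sum_congr rfl fun x _ => by simp only [Pi.add_apply]; ring

theorem dot_add_right (f g g' : X → ℤ) : dot f (g + g') = dot f g + dot f g' := by
  rw [dot_comm, dot_add_left, dot_comm g, dot_comm g']

theorem dot_smul_left (a : ℤ) (f g : X → ℤ) : dot (a • f) g = a * dot f g := by
  unfold dot
  rw [Finset.mul_sum]
  exact Finset.sum_congr rfl fun x _ => by simp only [Pi.smul_apply, smul_eq_mul]; ring

theorem dot_smul_right (a : ℤ) (f g : X → ℤ) : dot f (a • g) = a * dot f g := by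
  rw [dot_comm, dot_smul_left, dot_comm]

theorem dot_neg_left (f g : X → ℤ) : dot (-f) g = -dot f g := by
  unfold dot
  rw [← Finset.sum_neg_distrib]
  exact Finset.sum_congr rfl fun x _ => by simp only [Pi.neg_apply]; ring

theorem dot_sub_right (f g g' : X → ℤ) : dot f (g - g') = dot f g - dot f g' := by
  unfold dot
  rw [← Finset.sum_sub_distrib]
  exact Finset.sum_congr rfl fun x _ => by simp only [Pi.sub_apply]; ring

/-- The form is invariant under a permutation of `X`. -/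
theorem dot_comp_perm (π : Equiv.Perm X) (f g : X → ℤ) :
    dot (fun x => f (π x)) (fun x => g (π x)) = dot f g := by
  unfold dot
  exact Equiv.sum_comp π fun x => f x * g x

variable (σ ρ : Equiv.Perm X)

/-- `W_ℤ`: `P + s P = 0` and `P ∈ range (r' - 1)`. -/
def IsW (P : X → ℤ) : Prop :=
  (∀ x, P x + P (σ x) = 0) ∧ ∃ m : X → ℤ, ∀ x, m (ρ.symm x) - m x = P x

/-- `C_ℤ`: `P = s n - n` with `r' n = s n`. -/
def IsC (P : X → ℤ) : Prop :=
  ∃ n : X → ℤ, (∀ x, n (ρ.symm x) = n (σ x)) ∧ ∀ x, P x = n (σ x) - n x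

/-- Twice the coset-model form: `twoB P P' m' = -(P, P') - 2 (P, m')`, where `(r' - 1) m' = P'`. -/
def twoB (P P' m' : X → ℤ) : ℤ := -(dot P P') - 2 * dot P m'

variable {σ ρ}

/-! ### Well-definedness, alternation, skew-symmetry -/

/-- `range (r' - 1)` is orthogonal to the `r'`-invariant functions. -/
theorem dot_eq_zero_of_range_of_inv {P m d : X → ℤ} (hm : ∀ x, m (ρ.symm x) - m x = P x)
    (hd : ∀ x, d (ρ.symm x) = d x) : dot P d = 0 := by
  have h1 : dot P d = dot (fun x => m (ρ.symm x)) (fun x => d (ρ.symm x)) - dot m d := by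
    unfold dot
    rw [← Finset.sum_sub_distrib]
    exact Finset.sum_congr rfl fun x _ => by
      show P x * d x = m (ρ.symm x) * d (ρ.symm x) - m x * d x
      rw [← hm x, hd x]; ring
  rw [h1, dot_comp_perm ρ.symm m d, sub_self]

/-- `twoB` does not depend on the choice of `m'`. -/
theorem twoB_congr {P m P' m₁ m₂ : X → ℤ} (hm : ∀ x, m (ρ.symm x) - m x = P x)
    (h₁ : ∀ x, m₁ (ρ.symm x) - m₁ x = P' x) (h₂ : ∀ x, m₂ (ρ.symm x) - m₂ x = P' x) :
    twoB P P' m₁ = twoB P P' m₂ := by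
  have h : dot P (m₁ - m₂) = 0 := by
    refine dot_eq_zero_of_range_of_inv (ρ := ρ) hm fun x => ?_
    have e1 := h₁ x
    have e2 := h₂ x
    simp only [Pi.sub_apply]
    linarith
  rw [dot_sub_right] at h
  unfold twoB
  linarith

/-- The form is alternating. -/
theorem twoB_self {P m : X → ℤ} (hm : ∀ x, m (ρ.symm x) - m x = P x) : twoB P P m = 0 := by
  have h1 : dot P P + 2 * dot P m
      = dot (fun x => m (ρ.symm x)) (fun x => m (ρ.symm x)) - dot m m := by
    unfold dot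
    rw [Finset.mul_sum, ← Finset.sum_add_distrib, ← Finset.sum_sub_distrib]
    exact Finset.sum_congr rfl fun x _ => by rw [← hm x]; ring
  rw [dot_comp_perm ρ.symm m m, sub_self] at h1
  unfold twoB
  linarith

/-- The form is skew-symmetric. -/
theorem twoB_skew {P m P' m' : X → ℤ} (hm : ∀ x, m (ρ.symm x) - m x = P x)
    (hm' : ∀ x, m' (ρ.symm x) - m' x = P' x) : twoB P P' m' = -twoB P' P m := by
  have h := twoB_self (ρ := ρ) (P := P + P') (m := m + m') (fun x => by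
    simp only [Pi.add_apply]
    have e1 := hm x
    have e2 := hm' x
    linarith)
  have h1 := twoB_self hm
  have h2 := twoB_self hm'
  unfold twoB at h h1 h2 ⊢
  simp only [dot_add_left, dot_add_right] at h
  rw [dot_comm P' P] at h ⊢
  linarith

/-! ### `C ⊆ W` and `C` lies in the radical -/

omit [Fintype X] in
theorem IsC.isW (hσ : ∀ x, σ (σ x) = x) {P : X → ℤ} (hP : IsC σ ρ P) : IsW σ ρ P := by
  obtain ⟨n, hn, hP⟩ := hP
  refine ⟨fun x => ?_, n, fun x => ?_⟩
  · rw [hP x, hP (σ x), hσ x]; ring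
  · rw [hP x, hn x]

/-- If `P + s P = 0` then `P` is orthogonal to `s n + n`. -/
theorem dot_symm_eq_zero {P : X → ℤ} (hP : ∀ x, P x + P (σ x) = 0)
    (n : X → ℤ) : dot P (fun x => n (σ x)) = -dot P n := by
  have h1 : dot P (fun x => n (σ x)) = dot (fun x => -P (σ x)) (fun x => n (σ x)) := by
    unfold dot
    exact Finset.sum_congr rfl fun x _ => by
      have := hP x
      rw [show P x = -P (σ x) by linarith]
  rw [h1, dot_comp_perm σ (fun x => -P x) n]
  exact dot_neg_left P n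

theorem twoB_isC_right {P n : X → ℤ} (hP : ∀ x, P x + P (σ x) = 0) :
    twoB P (fun x => n (σ x) - n x) n = 0 := by
  have h : dot P (fun x => n (σ x) - n x) = dot P (fun x => n (σ x)) - dot P n :=
    dot_sub_right P (fun x => n (σ x)) n
  unfold twoB
  rw [h, dot_symm_eq_zero hP]
  ring

theorem twoB_isC_left {n P' m' : X → ℤ}
    (hn : ∀ x, n (ρ.symm x) = n (σ x)) (hP' : ∀ x, P' x + P' (σ x) = 0)
    (hm' : ∀ x, m' (ρ.symm x) - m' x = P' x) : twoB (fun x => n (σ x) - n x) P' m' = 0 := by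
  rw [twoB_skew (ρ := ρ) (m := n) (fun x => by rw [hn x]) hm', twoB_isC_right hP', neg_zero]

/-! ### Saturation -/

omit [Fintype X] in
/-- `range (r' - 1)` is saturated. -/
theorem sat_range {n : ℤ} (hn : n ≠ 0) {P m : X → ℤ}
    (hm : ∀ x, m (ρ.symm x) - m x = n * P x) :
    ∃ m₁ : X → ℤ, ∀ x, m₁ (ρ.symm x) - m₁ x = P x := by
  refine ⟨fun x => m x / n, fun x => ?_⟩
  have h1 : m (ρ.symm x) % n = m x % n := by
    have : m (ρ.symm x) = m x + n * P x := by linarith [hm x]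
    rw [this, Int.add_mul_emod_self_left]
  have e1 := Int.emod_add_mul_ediv (m (ρ.symm x)) n
  have e2 := Int.emod_add_mul_ediv (m x) n
  have h2 : n * (m (ρ.symm x) / n - m x / n) = n * P x := by
    have := hm x
    rw [mul_sub]
    linarith
  exact mul_left_cancel₀ hn h2

omit [Fintype X] in
/-- `I^s + I^r` is saturated. -/
theorem sat_lam {n : ℤ} (hn : n ≠ 0) {Q u v : X → ℤ} (hu : ∀ x, u (σ x) = u x)
    (hv : ∀ x, v (ρ.symm x) = v x) (h : ∀ x, n * Q x = u x + v x) :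
    ∃ u' v' : X → ℤ, (∀ x, u' (σ x) = u' x) ∧ (∀ x, v' (ρ.symm x) = v' x) ∧
      ∀ x, Q x = u' x + v' x := by
  refine ⟨fun x => u x / n, fun x => Q x - u x / n,
    fun x => by show u (σ x) / n = u x / n; rw [hu x], fun x => ?_,
    fun x => by show Q x = u x / n + (Q x - u x / n); ring⟩
  show Q (ρ.symm x) - u (ρ.symm x) / n = Q x - u x / n
  have key : ∀ y, n * (Q y - u y / n) = v y + (-v y) % n := by
    intro y
    have e := Int.emod_add_mul_ediv (u y) n
    have h1 : u y % n = (-v y) % n := by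
      have : u y = -v y + n * Q y := by linarith [h y]
      rw [this, Int.add_mul_emod_self_left]
    rw [mul_sub]
    linarith [h y]
  have h2 := key (ρ.symm x)
  rw [hv x] at h2
  exact mul_left_cancel₀ hn (h2.trans (key x).symm)

/-- `(I^s + I^r)^⊥ ⊆ W`. -/
theorem isW_of_perp [DecidableEq X] (hσ : ∀ x, σ (σ x) = x) (hρ : ∀ x, ρ (ρ (ρ x)) = x)
    {P : X → ℤ} (hs : ∀ u : X → ℤ, (∀ x, u (σ x) = u x) → dot P u = 0)
    (hr : ∀ v : X → ℤ, (∀ x, v (ρ.symm x) = v x) → dot P v = 0) : IsW σ ρ P := by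
  have hdot1 : ∀ a : X, dot P (Pi.single a 1) = P a := by
    intro a
    unfold dot
    simp [Pi.single_apply]
  constructor
  · intro x
    have := hs (Pi.single x 1 + Pi.single (σ x) 1) (fun y => by
      simp only [Pi.add_apply, Pi.single_apply]
      have e1 : σ y = x ↔ y = σ x := ⟨fun h => by rw [← h, hσ], fun h => by rw [h, hσ]⟩
      have e2 : σ y = σ x ↔ y = x := σ.injective.eq_iff
      simp only [e1, e2]
      ring)
    rw [dot_add_right, hdot1, hdot1] at this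
    exact this
  · have hN : ∀ x, P x + P (ρ x) + P (ρ (ρ x)) = 0 := by
      intro x
      have := hr (Pi.single x 1 + Pi.single (ρ x) 1 + Pi.single (ρ (ρ x)) 1) (fun y => by
        simp only [Pi.add_apply, Pi.single_apply]
        have e1 : ρ.symm y = x ↔ y = ρ x := by rw [Equiv.symm_apply_eq]
        have e2 : ρ.symm y = ρ x ↔ y = ρ (ρ x) := by rw [Equiv.symm_apply_eq]
        have e3 : ρ.symm y = ρ (ρ x) ↔ y = x := by rw [Equiv.symm_apply_eq, hρ]
        simp only [e1, e2, e3]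
        ring)
      rw [dot_add_right, dot_add_right, hdot1, hdot1, hdot1] at this
      exact this
    refine sat_range (ρ := ρ) (n := 3) (by norm_num)
      (m := fun x => -2 * P x - P (ρ.symm x)) fun x => ?_
    have h := hN (ρ.symm (ρ.symm x))
    rw [Equiv.apply_symm_apply, Equiv.apply_symm_apply] at h
    show -2 * P (ρ.symm x) - P (ρ.symm (ρ.symm x)) - (-2 * P x - P (ρ.symm x)) = 3 * P x
    linarith

/-! ### The lattice `Λ = I^s + I^r` and its free quotient -/

variable (σ ρ) in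
/-- `Λ = I^s + I^r`. -/
def lam : Submodule ℤ (X → ℤ) where
  carrier := {w | ∃ u v : X → ℤ, (∀ x, u (σ x) = u x) ∧ (∀ x, v (ρ.symm x) = v x) ∧ w = u + v}
  add_mem' := by
    rintro _ _ ⟨u, v, hu, hv, rfl⟩ ⟨u', v', hu', hv', rfl⟩
    exact ⟨u + u', v + v', fun x => by simp [hu x, hu' x], fun x => by simp [hv x, hv' x],
      by abel⟩
  zero_mem' := ⟨0, 0, fun _ => rfl, fun _ => rfl, by simp⟩
  smul_mem' := by
    rintro a _ ⟨u, v, hu, hv, rfl⟩
    exact ⟨a • u, a • v, fun x => by simp [hu x], fun x => by simp [hv x], by rw [smul_add]⟩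

omit [Fintype X] in
theorem mem_lam {w : X → ℤ} : w ∈ lam σ ρ ↔
    ∃ u v : X → ℤ, (∀ x, u (σ x) = u x) ∧ (∀ x, v (ρ.symm x) = v x) ∧ w = u + v := Iff.rfl

omit [Fintype X] in
theorem isTorsionFree_quot : Module.IsTorsionFree ℤ ((X → ℤ) ⧸ lam σ ρ) := by
  refine ⟨fun n hn => ?_⟩
  have hn0 : n ≠ 0 := hn.ne_zero
  intro a b hab
  induction a using Submodule.Quotient.induction_on with
  | H a =>
    induction b using Submodule.Quotient.induction_on with
    | H b =>
      simp only at hab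
      rw [← Submodule.Quotient.mk_smul, ← Submodule.Quotient.mk_smul, Submodule.Quotient.eq] at hab
      rw [Submodule.Quotient.eq]
      obtain ⟨u, v, hu, hv, h⟩ := hab
      obtain ⟨u', v', hu', hv', h'⟩ := sat_lam hn0 hu hv (Q := a - b) (fun x => by
        have := congrFun h x
        simpa [mul_sub] using this)
      exact ⟨u', v', hu', hv', funext h'⟩

/-- If `n ∣ (w, P)` for every `P ∈ Λ^⊥`, then `w ∈ Λ + n ℤ^X`. -/
theorem exists_of_dvd_dot [DecidableEq X] (n : ℤ) (w : X → ℤ)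
    (h : ∀ P : X → ℤ, (∀ l ∈ lam σ ρ, dot P l = 0) → n ∣ dot w P) :
    ∃ l ∈ lam σ ρ, ∃ w₁ : X → ℤ, w = l + n • w₁ := by
  have _ := isTorsionFree_quot (σ := σ) (ρ := ρ)
  have _ : Module.Free ℤ ((X → ℤ) ⧸ lam σ ρ) := Module.free_of_finite_type_torsion_free'
  let b := Module.Free.chooseBasis ℤ ((X → ℤ) ⧸ lam σ ρ)
  have hcoord : ∀ (i : Module.Free.ChooseBasisIndex ℤ ((X → ℤ) ⧸ lam σ ρ)) (f : X → ℤ),
      dot f (fun x => b.coord i (Submodule.Quotient.mk (Pi.single x 1)))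
        = b.coord i (Submodule.Quotient.mk f) := by
    intro i f
    have hf : f = ∑ x, f x • (Pi.single x (1 : ℤ) : X → ℤ) := by
      conv_lhs => rw [← Finset.univ_sum_single f]
      refine Finset.sum_congr rfl fun x _ => ?_
      ext y
      simp [Pi.single_apply]
    conv_rhs => rw [hf]
    show _ = (b.coord i ∘ₗ (lam σ ρ).mkQ) (∑ x, f x • Pi.single x 1)
    rw [map_sum]
    unfold dot
    refine Finset.sum_congr rfl fun x _ => ?_
    rw [map_smul, smul_eq_mul]
    rfl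
  have hdvd : ∀ i, n ∣ b.repr (Submodule.Quotient.mk w) i := by
    intro i
    have h1 := h (fun x => b.coord i (Submodule.Quotient.mk (Pi.single x 1))) (fun l hl => by
      rw [dot_comm, hcoord i l, (Submodule.Quotient.mk_eq_zero _).mpr hl, map_zero])
    rw [hcoord i w] at h1
    exact h1
  choose c hc using hdvd
  obtain ⟨w₁, hw₁⟩ := Submodule.Quotient.mk_surjective (lam σ ρ) (∑ i, c i • b i)
  refine ⟨w - n • w₁, ?_, w₁, by abel⟩
  rw [← Submodule.Quotient.mk_eq_zero, Submodule.Quotient.mk_sub, Submodule.Quotient.mk_smul,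
    hw₁, sub_eq_zero]
  conv_lhs => rw [← b.sum_repr (Submodule.Quotient.mk w)]
  rw [Finset.smul_sum]
  refine Finset.sum_congr rfl fun i _ => ?_
  rw [hc i, mul_smul]

/-! ### Biadditivity of `twoB` -/

theorem twoB_add_left (P Q P' m' : X → ℤ) : twoB (P + Q) P' m' = twoB P P' m' + twoB Q P' m' := by
  unfold twoB
  rw [dot_add_left, dot_add_left]
  ring

theorem twoB_add_right (P P' m' Q' k' : X → ℤ) :
    twoB P (P' + Q') (m' + k') = twoB P P' m' + twoB P Q' k' := by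
  unfold twoB
  rw [dot_add_right, dot_add_right]
  ring

theorem twoB_smul_left (a : ℤ) (P P' m' : X → ℤ) : twoB (a • P) P' m' = a * twoB P P' m' := by
  unfold twoB
  rw [dot_smul_left, dot_smul_left]
  ring

theorem twoB_smul_right (a : ℤ) (P P' m' : X → ℤ) :
    twoB P (a • P') (a • m') = a * twoB P P' m' := by
  unfold twoB
  rw [dot_smul_right, dot_smul_right]
  ring

/-! ### The radical of `twoB` modulo an odd number -/

/-- **Right radical mod `n`** (`n` odd, e.g. an odd prime, `3` included): if `P' ∈ W` pairs to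
`0` mod `n` with all of `W`, then `P' ∈ C + n W`. -/
theorem radical_right [DecidableEq X] (hσ : ∀ x, σ (σ x) = x) (hρ : ∀ x, ρ (ρ (ρ x)) = x)
    {n : ℕ} (hn : Odd n) {P' m' : X → ℤ} (hP' : ∀ x, P' x + P' (σ x) = 0)
    (hm' : ∀ x, m' (ρ.symm x) - m' x = P' x)
    (h : ∀ P : X → ℤ, IsW σ ρ P → (n : ℤ) ∣ twoB P P' m') :
    ∃ c P₁ : X → ℤ, IsC σ ρ c ∧ IsW σ ρ P₁ ∧ ∀ x, P' x = c x + n * P₁ x := by
  have hn0 : (n : ℤ) ≠ 0 := by exact_mod_cast hn.pos.ne'
  obtain ⟨k, hk⟩ : ∃ k : ℤ, 2 * k = n + 1 := by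
    obtain ⟨j, hj⟩ := hn
    exact ⟨j + 1, by rw [hj]; push_cast; ring⟩
  -- Step A: `-P' - 2 m' ∈ Λ + n ℤ^X`
  obtain ⟨l, hl, w₁, hw⟩ := exists_of_dvd_dot (σ := σ) (ρ := ρ) (n : ℤ)
    (fun x => -P' x - 2 * m' x) (fun P hP => by
      have hW : IsW σ ρ P := isW_of_perp hσ hρ
        (fun u hu => hP u ⟨u, 0, hu, fun _ => rfl, by simp⟩)
        (fun v hv => hP v ⟨0, v, fun _ => rfl, hv, by simp⟩)
      have e : dot (fun x => -P' x - 2 * m' x) P = twoB P P' m' := by
        rw [dot_comm]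
        unfold twoB dot
        rw [Finset.mul_sum, ← Finset.sum_neg_distrib, ← Finset.sum_sub_distrib]
        exact Finset.sum_congr rfl fun x _ => by ring
      rw [e]
      exact h P hW)
  obtain ⟨u, v, hu, hv, rfl⟩ := hl
  have hw' : ∀ x, -P' x - 2 * m' x = u x + v x + n * w₁ x := fun x => by
    have := congrFun hw x
    simpa using this
  -- Step B: the `T`-invariant function
  have hn₁r : ∀ x, 2 * m' (ρ.symm x) + v (ρ.symm x) = 2 * m' x + v x + 2 * P' x := fun x => by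
    rw [hv x]
    linarith [hm' x]
  have hn₁s : ∀ x, 2 * m' (σ x) + v (σ x)
      = 2 * m' x + v x + 2 * P' x + n * (w₁ x - w₁ (σ x)) := fun x => by
    have e1 := hw' x
    have e2 := hw' (σ x)
    rw [hu x] at e2
    have e3 := hP' x
    rw [mul_sub]
    linarith
  have hnn1 : ∀ x, (k * (2 * m' (ρ.symm x) + v (ρ.symm x))) % (n : ℤ)
      = (k * (2 * m' (σ x) + v (σ x))) % (n : ℤ) := fun x => by
    rw [hn₁r x, hn₁s x]
    have : k * (2 * m' x + v x + 2 * P' x + ↑n * (w₁ x - w₁ (σ x)))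
        = k * (2 * m' x + v x + 2 * P' x) + n * (k * (w₁ x - w₁ (σ x))) := by ring
    rw [this, Int.add_mul_emod_self_left]
  have hnn2 : ∀ x, (n : ℤ) ∣ P' x - ((k * (2 * m' (σ x) + v (σ x))) % (n : ℤ)
      - (k * (2 * m' x + v x)) % (n : ℤ)) := fun x => by
    have e1 : (n : ℤ) ∣ k * (2 * m' (σ x) + v (σ x)) - (k * (2 * m' (σ x) + v (σ x))) % (n : ℤ) :=
      Int.dvd_self_sub_emod
    have e2 : (n : ℤ) ∣ k * (2 * m' x + v x) - (k * (2 * m' x + v x)) % (n : ℤ) :=
      Int.dvd_self_sub_emod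
    have e3 : P' x - ((k * (2 * m' (σ x) + v (σ x))) % (n : ℤ) - (k * (2 * m' x + v x)) % (n : ℤ))
        = (k * (2 * m' (σ x) + v (σ x)) - (k * (2 * m' (σ x) + v (σ x))) % (n : ℤ))
          - (k * (2 * m' x + v x) - (k * (2 * m' x + v x)) % (n : ℤ))
          - n * (P' x + k * (w₁ x - w₁ (σ x))) := by
      linear_combination (-(P' x)) * hk - k * hn₁s x
    rw [e3]
    exact dvd_sub (dvd_sub e1 e2) (dvd_mul_right _ _)
  choose P₁ hP₁ using hnn2
  refine ⟨fun x => (k * (2 * m' (σ x) + v (σ x))) % (n : ℤ) - (k * (2 * m' x + v x)) % (n : ℤ),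
    P₁, ⟨fun x => (k * (2 * m' x + v x)) % (n : ℤ), hnn1, fun _ => rfl⟩, ⟨fun x => ?_, ?_⟩,
    fun x => by linarith [hP₁ x]⟩
  · have e1 := hP₁ x
    have e2 := hP₁ (σ x)
    rw [hσ x] at e2
    have e3 := hP' x
    have h0 : (n : ℤ) * (P₁ x + P₁ (σ x)) = 0 := by
      rw [mul_add]
      linarith
    rcases mul_eq_zero.mp h0 with h0 | h0
    · exact absurd h0 hn0
    · exact h0
  · refine sat_range (ρ := ρ) hn0 (m := fun x => m' x - (k * (2 * m' x + v x)) % (n : ℤ))
      fun x => ?_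
    show m' (ρ.symm x) - (k * (2 * m' (ρ.symm x) + v (ρ.symm x))) % (n : ℤ)
      - (m' x - (k * (2 * m' x + v x)) % (n : ℤ)) = n * P₁ x
    rw [hnn1 x]
    linarith [hP₁ x, hm' x]

/-- **Left radical mod `n`**. -/
theorem radical_left [DecidableEq X] (hσ : ∀ x, σ (σ x) = x) (hρ : ∀ x, ρ (ρ (ρ x)) = x)
    {n : ℕ} (hn : Odd n) {P m : X → ℤ} (hP : ∀ x, P x + P (σ x) = 0)
    (hm : ∀ x, m (ρ.symm x) - m x = P x)
    (h : ∀ P' m' : X → ℤ, (∀ x, P' x + P' (σ x) = 0) → (∀ x, m' (ρ.symm x) - m' x = P' x) →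
      (n : ℤ) ∣ twoB P P' m') :
    ∃ c P₁ : X → ℤ, IsC σ ρ c ∧ IsW σ ρ P₁ ∧ ∀ x, P x = c x + n * P₁ x := by
  refine radical_right hσ hρ hn hP hm fun P' hP' => ?_
  obtain ⟨hP's, m', hm'⟩ := hP'
  rw [twoB_skew hm' hm]
  exact (dvd_neg).mpr (h P' m' hP's hm')

/-- Converse: `C + n W` lies in the radical mod `n` (any integer `n`). -/
theorem dvd_twoB_of_eq {n : ℤ} {P c P₁ P' m' : X → ℤ} (hP : IsW σ ρ P) (hc : IsC σ ρ c)
    (hP₁ : IsW σ ρ P₁) (hm' : ∀ x, m' (ρ.symm x) - m' x = P' x)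
    (hP' : ∀ x, P' x = c x + n * P₁ x) : n ∣ twoB P P' m' := by
  obtain ⟨hPs, m, hm⟩ := hP
  obtain ⟨nc, hnc, hc⟩ := hc
  obtain ⟨-, m₁, hm₁⟩ := hP₁
  have e1 : P' = (fun x => nc (σ x) - nc x) + n • P₁ := funext fun x => by
    simp [hP' x, hc x]
  have hm'' : ∀ x, (nc + n • m₁) (ρ.symm x) - (nc + n • m₁) x = P' x := fun x => by
    simp only [Pi.add_apply, Pi.smul_apply, smul_eq_mul]
    rw [hP' x, hc x, ← hm₁ x, hnc x]
    ring
  rw [twoB_congr hm hm' hm'', e1, twoB_add_right, twoB_isC_right hPs, zero_add, twoB_smul_right]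
  exact dvd_mul_right _ _

/-- The radical of `twoB` mod an odd `n` on `W` is exactly `C + n W`. -/
theorem radical_right_iff [DecidableEq X] (hσ : ∀ x, σ (σ x) = x) (hρ : ∀ x, ρ (ρ (ρ x)) = x)
    {n : ℕ} (hn : Odd n) {P' m' : X → ℤ} (hP' : ∀ x, P' x + P' (σ x) = 0)
    (hm' : ∀ x, m' (ρ.symm x) - m' x = P' x) :
    (∀ P : X → ℤ, IsW σ ρ P → (n : ℤ) ∣ twoB P P' m') ↔
      ∃ c P₁ : X → ℤ, IsC σ ρ c ∧ IsW σ ρ P₁ ∧ ∀ x, P' x = c x + n * P₁ x :=
  ⟨radical_right hσ hρ hn hP' hm', fun ⟨_, _, hc, hP₁, h⟩ _ hP =>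
    dvd_twoB_of_eq hP hc hP₁ hm' h⟩

/-! ### Closure properties -/

omit [Fintype X] in
theorem isW_zero : IsW σ ρ (0 : X → ℤ) := ⟨fun _ => by simp, 0, fun _ => by simp⟩

omit [Fintype X] in
theorem IsW.add {P Q : X → ℤ} (hP : IsW σ ρ P) (hQ : IsW σ ρ Q) : IsW σ ρ (P + Q) := by
  obtain ⟨h1, m, hm⟩ := hP
  obtain ⟨h2, k, hk⟩ := hQ
  refine ⟨fun x => ?_, m + k, fun x => ?_⟩
  · simp only [Pi.add_apply]
    linarith [h1 x, h2 x]
  · simp only [Pi.add_apply]
    linarith [hm x, hk x]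

omit [Fintype X] in
theorem IsW.smul (a : ℤ) {P : X → ℤ} (hP : IsW σ ρ P) : IsW σ ρ (a • P) := by
  obtain ⟨h1, m, hm⟩ := hP
  refine ⟨fun x => ?_, a • m, fun x => ?_⟩
  · simp only [Pi.smul_apply, smul_eq_mul]
    rw [← mul_add, h1 x, mul_zero]
  · simp only [Pi.smul_apply, smul_eq_mul]
    rw [← mul_sub, hm x]

omit [Fintype X] in
theorem IsW.neg {P : X → ℤ} (hP : IsW σ ρ P) : IsW σ ρ (-P) := by
  have := hP.smul (-1)
  simpa using this

omit [Fintype X] in
theorem isC_zero : IsC σ ρ (0 : X → ℤ) := ⟨0, fun _ => rfl, fun _ => by simp⟩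

omit [Fintype X] in
theorem IsC.add {P Q : X → ℤ} (hP : IsC σ ρ P) (hQ : IsC σ ρ Q) : IsC σ ρ (P + Q) := by
  obtain ⟨n, hn, hP⟩ := hP
  obtain ⟨k, hk, hQ⟩ := hQ
  refine ⟨n + k, fun x => ?_, fun x => ?_⟩
  · simp only [Pi.add_apply]
    rw [hn x, hk x]
  · simp only [Pi.add_apply]
    rw [hP x, hQ x]
    ring

omit [Fintype X] in
theorem IsC.smul (a : ℤ) {P : X → ℤ} (hP : IsC σ ρ P) : IsC σ ρ (a • P) := by
  obtain ⟨n, hn, hP⟩ := hP
  refine ⟨a • n, fun x => ?_, fun x => ?_⟩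
  · simp only [Pi.smul_apply, smul_eq_mul]
    rw [hn x]
  · simp only [Pi.smul_apply, smul_eq_mul]
    rw [hP x]
    ring

end Fermat.Agent.S41.H55.CosetLattice
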