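import Mathlib
import Fermat.Prelude.Def_FLTPrelim_GaloisRep
import Fermat.Agent.S41.H55.TorsionCard

/-!
# The `p`-torsion of a Weierstrass curve is a `2`-dimensional `𝔽_p`-vector space

Corollary of `Fermat.Agent.S41.H55.natCard_torsionBy_eq` (`#W[p](K) = p ^ 2`), for the `ZMod p`-module
structure on `Submodule.torsionBy ℤ W.Point p` used by the prelude's `GaloisRepIsIrreducible`.
-/

set_option autoImplicit false

open WeierstrassCurve WeierstrassCurve.Affine

namespace Fermat.Agent.S41.H55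

/-- A finite `ZMod p`-module with `p ^ 2` elements has dimension `2`. -/
theorem finrank_eq_two_of_natCard_eq {p : ℕ} [Fact p.Prime] (V : Type*) [AddCommGroup V]
    [Module (ZMod p) V] [Finite V] (h : Nat.card V = p ^ 2) : Module.finrank (ZMod p) V = 2 := by
  have h1 : Nat.card V = p ^ Module.finrank (ZMod p) V := by
    rw [Module.natCard_eq_pow_finrank (K := ZMod p) (V := V), Nat.card_zmod]
  rw [h1] at h
  exact Nat.pow_right_injective (Fact.out : p.Prime).two_le h

/-- The `p`-torsion is finite. -/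
theorem finite_torsionBy {K : Type*} [Field K] [DecidableEq K] (W : Affine K) {p : ℕ}
    (hp : p.Prime) (hp2 : p ≠ 2) (hpK : (p : K) ≠ 0) :
    Finite (Submodule.torsionBy ℤ W.Point p) :=
  (Fermat.Agent.S52.H55.natCard_torsionBy_le_of_cast_ne_zero W hp hp2 hpK).1

/-- **`dim_{𝔽_p} W[p] = 2`** for any `ZMod p`-module structure on the `p`-torsion, over an
algebraically closed field in which the odd prime `p` is nonzero (`Δ ≠ 0`). -/
theorem finrank_torsionBy_eq_two {K : Type*} [Field K] [DecidableEq K] [IsAlgClosed K]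
    (W : Affine K) (hΔ : W.Δ ≠ 0) {p : ℕ} [Fact p.Prime] (hp2 : p ≠ 2) (hpK : (p : K) ≠ 0)
    [Module (ZMod p) (Submodule.torsionBy ℤ W.Point p)] :
    Module.finrank (ZMod p) (Submodule.torsionBy ℤ W.Point p) = 2 := by
  have hp : p.Prime := Fact.out
  have := finite_torsionBy W hp hp2 hpK
  exact finrank_eq_two_of_natCard_eq _ (natCard_torsionBy_eq W hΔ hp hp2 hpK)

open WeierstrassCurve.Affine.Point in
/-- **`dim_{𝔽_p} E[p] = 2`** for the module of the prelude's `GaloisRepIsIrreducible`: the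
`p`-torsion of the base change `W'⁄K` with its prelude `ZMod p`-module structure. -/
theorem finrank_torsionBy_baseChange_eq_two {R : Type*} {K : Type*} [CommRing R] [Field K]
    [DecidableEq K] [IsAlgClosed K] [Algebra R K] (W' : Affine R) (hΔ : (W'⁄K).Δ ≠ 0) {p : ℕ}
    [Fact p.Prime] (hp2 : p ≠ 2) (hpK : (p : K) ≠ 0) :
    Module.finrank (ZMod p) (Submodule.torsionBy ℤ (W'⁄K).Point p) = 2 :=
  finrank_torsionBy_eq_two (W'⁄K) hΔ hp2 hpK

/-- `#E[p] = p ^ 2` for the base change `W'⁄K` (the shape of the prelude's torsion module). -/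
theorem natCard_torsionBy_baseChange_eq {R : Type*} {K : Type*} [CommRing R] [Field K]
    [DecidableEq K] [IsAlgClosed K] [Algebra R K] (W' : Affine R) (hΔ : (W'⁄K).Δ ≠ 0) {p : ℕ}
    (hp : p.Prime) (hp2 : p ≠ 2) (hpK : (p : K) ≠ 0) :
    Nat.card (Submodule.torsionBy ℤ (W'⁄K).Point p) = p ^ 2 :=
  natCard_torsionBy_eq (W'⁄K) hΔ hp hp2 hpK

/-- **`dim_{𝔽_p} E[p](ℚ̄) = 2`** for a Weierstrass curve over `ℚ` with `Δ ≠ 0` and an odd prime
`p`: the module of `GaloisRepIsIrreducible (K := AlgebraicClosure ℚ) ℚ E p`. -/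
theorem finrank_torsionBy_rat (E : Affine ℚ) (hΔ : E.Δ ≠ 0) {p : ℕ} [Fact p.Prime]
    (hp2 : p ≠ 2) :
    Module.finrank (ZMod p) (Submodule.torsionBy ℤ (E⁄(AlgebraicClosure ℚ)).Point p) = 2 := by
  refine finrank_torsionBy_baseChange_eq_two E ?_ hp2 ?_
  · rw [Affine.baseChange, WeierstrassCurve.baseChange, WeierstrassCurve.map_Δ]
    exact (map_ne_zero (algebraMap ℚ (AlgebraicClosure ℚ))).mpr hΔ
  · exact Nat.cast_ne_zero.mpr (Fact.out : p.Prime).ne_zero

/-- `#E[p](ℚ̄) = p ^ 2` for a Weierstrass curve over `ℚ` with `Δ ≠ 0` and an odd prime `p`. -/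
theorem natCard_torsionBy_rat (E : Affine ℚ) (hΔ : E.Δ ≠ 0) {p : ℕ} (hp : p.Prime)
    (hp2 : p ≠ 2) :
    Nat.card (Submodule.torsionBy ℤ (E⁄(AlgebraicClosure ℚ)).Point p) = p ^ 2 := by
  refine natCard_torsionBy_baseChange_eq E ?_ hp hp2 ?_
  · rw [Affine.baseChange, WeierstrassCurve.baseChange, WeierstrassCurve.map_Δ]
    exact (map_ne_zero (algebraMap ℚ (AlgebraicClosure ℚ))).mpr hΔ
  · exact Nat.cast_ne_zero.mpr hp.ne_zero

end Fermat.Agent.S41.H55
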